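/-
GATE-M (S41, level raising) / M-SQUEEZE (helper41): the ABSTRACT lattice part of the toric
(special-fibre) route, board 3423 (R4)+(R5).

Setting: `L` a finite free `ℤ`-module (the lattice `Lam (N q)`), `p` a prime,
* `K ≤ L` a `p`-saturated submodule (the characteristic-`0` toric lattice `K_∞`),
* `Kp ≤ L` an additive subgroup containing `K` (the classes whose reduction mod `p` is toric),
* `ξ : Kp →+ X` into a finite group with `ξ y = 0 → y ∈ p L` (glueing constants, `#X ≤ p ^ r`),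
* `r ≤ rank K` (the lower bound `rank K_∞ ≥ s - 1`).

Then
* `exists_eq_add_smul` : every `y ∈ Kp` is `k + p z` with `k ∈ K`  (toric fullness mod `p`);
* `exists_eigen_lift_of_class` : a class `k ∈ K`, `k ∉ p L`, killed mod `p` by a maximal ideal `𝔪`
  of a commutative ring `T` acting on `L` and preserving `K`, gives a characteristic-`0` eigenvector
  in `ℂ ⊗ K` whose eigencharacter is integral and reduces to `𝔪` (Deligne–Serre lifting on `K`);
* `exists_eigen_lift_of_toric` : the two combined.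

Mathlib + the landed abstract lifting lemma `S49.exists_eigen_lift`.
-/
import Mathlib
import Fermat.Agent.S49.CommAlg

set_option autoImplicit false

namespace Fermat.Agent.GM.Squeeze

open Module TensorProduct

section Count

variable {M : Type*} [AddCommGroup M] [Module.Free ℤ M] [Module.Finite ℤ M]

/-- **Counting step.** A homomorphism from a finite free `ℤ`-module of rank `≥ r` to a group of
order `≤ p ^ r` whose kernel consists of multiples of `p` is surjective. -/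
theorem surjective_of_ker_le_smul {p : ℕ} (hp : p.Prime)
    {X : Type*} [AddCommGroup X] [Finite X] (f : M →+ X)
    (hker : ∀ k : M, f k = 0 → ∃ k' : M, k = (p : ℤ) • k')
    {r : ℕ} (hX : Nat.card X ≤ p ^ r) (hr : r ≤ Module.finrank ℤ M) :
    Function.Surjective f := by
  classical
  have : NeZero p := ⟨hp.ne_zero⟩
  set n := Module.finrank ℤ M with hn
  let b : Basis (Fin n) ℤ M := Module.finBasis ℤ M
  let g : (Fin n → Fin p) → X := fun ε => f (∑ i, (((ε i : ℕ) : ℤ)) • b i)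
  have hg : Function.Injective g := by
    intro ε ε' h
    have h0 : f (∑ i, ((((ε i : ℕ) : ℤ)) - (((ε' i : ℕ) : ℤ))) • b i) = 0 := by
      have : (∑ i, ((((ε i : ℕ) : ℤ)) - (((ε' i : ℕ) : ℤ))) • b i)
          = (∑ i, (((ε i : ℕ) : ℤ)) • b i) - ∑ i, (((ε' i : ℕ) : ℤ)) • b i := by
        rw [← Finset.sum_sub_distrib]
        exact Finset.sum_congr rfl fun i _ => sub_smul _ _ _
      rw [this, map_sub, sub_eq_zero]
      exact h
    obtain ⟨k', hk'⟩ := hker _ h0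
    funext i
    have hrep := congrArg (fun x => b.repr x i) hk'
    simp only [map_sum, map_smul, Finsupp.coe_finsetSum, Finsupp.coe_smul, Finset.sum_apply,
      Pi.smul_apply, Basis.repr_self, smul_eq_mul] at hrep
    rw [Finset.sum_eq_single i (fun j _ hj => by simp [hj])
      (fun hi => absurd (Finset.mem_univ i) hi)] at hrep
    rw [Finsupp.single_eq_same, mul_one] at hrep
    -- `(ε i - ε' i : ℤ) = p * c` with both in `[0, p)`
    have h1 : ((ε i : ℕ) : ℤ) < p := by exact_mod_cast (ε i).isLt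
    have h2 : ((ε' i : ℕ) : ℤ) < p := by exact_mod_cast (ε' i).isLt
    have h3 : (0 : ℤ) ≤ ((ε i : ℕ) : ℤ) := Int.natCast_nonneg _
    have h4 : (0 : ℤ) ≤ ((ε' i : ℕ) : ℤ) := Int.natCast_nonneg _
    have hdvd : (p : ℤ) ∣ ((ε i : ℕ) : ℤ) - ((ε' i : ℕ) : ℤ) := ⟨_, hrep⟩
    have heq : ((ε i : ℕ) : ℤ) - ((ε' i : ℕ) : ℤ) = 0 := by
      apply Int.eq_zero_of_abs_lt_dvd hdvd
      rw [abs_lt]
      constructor <;> linarith
    apply Fin.ext
    have : ((ε i : ℕ) : ℤ) = ((ε' i : ℕ) : ℤ) := sub_eq_zero.mp heq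
    exact_mod_cast this
  have hcard : Nat.card (Fin n → Fin p) = p ^ n := by
    rw [Nat.card_eq_fintype_card, Fintype.card_fun, Fintype.card_fin, Fintype.card_fin]
  have hle : Nat.card X ≤ Nat.card (Fin n → Fin p) := by
    rw [hcard]
    exact hX.trans (Nat.pow_le_pow_right hp.pos hr)
  have hbij := hg.bijective_of_nat_card_le hle
  intro x
  obtain ⟨ε, hε⟩ := hbij.2 x
  exact ⟨_, hε⟩

end Count

section Squeeze

variable {L : Type*} [AddCommGroup L] [Module.Free ℤ L] [Module.Finite ℤ L]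

instance instFiniteSub (K : Submodule ℤ L) : Module.Finite ℤ K :=
  Module.IsNoetherian.finite ℤ K

/-- **Toric fullness mod `p` (squeeze).** -/
theorem exists_eq_add_smul {p : ℕ} (hp : p.Prime)
    (K : Submodule ℤ L) (hsat : ∀ x : L, (p : ℤ) • x ∈ K → x ∈ K)
    (Kp : AddSubgroup L) (hK : ∀ x ∈ K, x ∈ Kp)
    {X : Type*} [AddCommGroup X] [Finite X] (ξ : Kp →+ X)
    (hξ : ∀ y : Kp, ξ y = 0 → ∃ z : L, (y : L) = (p : ℤ) • z)
    {r : ℕ} (hX : Nat.card X ≤ p ^ r) (hr : r ≤ Module.finrank ℤ K)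
    {y : L} (hy : y ∈ Kp) : ∃ k ∈ K, ∃ z : L, y = k + (p : ℤ) • z := by
  let incl : K →+ Kp :=
    { toFun := fun k => ⟨(k : L), hK _ k.2⟩
      map_zero' := rfl
      map_add' := fun _ _ => rfl }
  let f : K →+ X := ξ.comp incl
  have hker : ∀ k : K, f k = 0 → ∃ k' : K, k = (p : ℤ) • k' := by
    intro k hk
    obtain ⟨z, hz⟩ := hξ (incl k) hk
    have hz' : (k : L) = (p : ℤ) • z := hz
    have hzK : z ∈ K := hsat z (hz' ▸ k.2)
    exact ⟨⟨z, hzK⟩, Subtype.ext hz'⟩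
  have hsurj := surjective_of_ker_le_smul hp f hker hX hr
  obtain ⟨k, hk⟩ := hsurj (ξ ⟨y, hy⟩)
  have h0 : ξ (⟨y, hy⟩ - incl k) = 0 := by
    rw [map_sub, sub_eq_zero]
    exact hk.symm
  obtain ⟨z, hz⟩ := hξ _ h0
  refine ⟨(k : L), k.2, z, ?_⟩
  have : y - (k : L) = (p : ℤ) • z := hz
  rw [← this]
  abel

end Squeeze

section Lift

variable {L : Type*} [AddCommGroup L] [Module.Free ℤ L] [Module.Finite ℤ L]
variable {T : Type*} [CommRing T]

/-- the restriction of a ring action to a stable submodule -/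
noncomputable def restrictHom (φ : T →+* Module.End ℤ L) (K : Submodule ℤ L)
    (hKφ : ∀ t : T, ∀ x ∈ K, φ t x ∈ K) : T →+* Module.End ℤ K where
  toFun t := (φ t).restrict (hKφ t)
  map_one' := by
    ext x
    simp [LinearMap.restrict_apply]
  map_mul' s t := by
    ext x
    simp [LinearMap.restrict_apply]
  map_zero' := by
    ext x
    simp [LinearMap.restrict_apply]
  map_add' s t := by
    ext x
    simp [LinearMap.restrict_apply]

omit [Module.Free ℤ L] [Module.Finite ℤ L] in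
@[simp] theorem restrictHom_apply_coe (φ : T →+* Module.End ℤ L) (K : Submodule ℤ L)
    (hKφ : ∀ t : T, ∀ x ∈ K, φ t x ∈ K) (t : T) (x : K) :
    ((restrictHom φ K hKφ t x : K) : L) = φ t x := rfl

/-- `x ↦ 1 ⊗ x` is injective on a free `ℤ`-module -/
theorem one_tmul_injective (K : Type*) [AddCommGroup K] [Module.Free ℤ K] :
    Function.Injective (fun x : K => (1 : ℂ) ⊗ₜ[ℤ] x) := by
  classical
  intro x y h
  let b := Module.Free.chooseBasis ℤ K
  apply b.repr.injective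
  ext i
  have h1 := congrArg (fun v => (b.baseChange ℂ).repr v i) h
  simp only [Basis.baseChange_repr_tmul] at h1
  have h2 : ((b.repr x i : ℤ) : ℂ) = ((b.repr y i : ℤ) : ℂ) := by
    simpa [Algebra.algebraMap_eq_smul_one] using h1
  exact_mod_cast h2

/-- **Deligne–Serre lifting on a stable saturated sublattice.** -/
theorem exists_eigen_lift_of_class {p : ℕ}
    (φ : T →+* Module.End ℤ L) (K : Submodule ℤ L) (hKφ : ∀ t : T, ∀ x ∈ K, φ t x ∈ K)
    (𝔪 : Ideal T) [h𝔪 : 𝔪.IsMaximal]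
    {k : L} (hk : k ∈ K) (hk0 : ¬ ∃ z : L, k = (p : ℤ) • z)
    (hk𝔪 : ∀ t ∈ 𝔪, ∃ z : L, φ t k = (p : ℤ) • z) :
    ∃ v : ℂ ⊗[ℤ] K, v ≠ 0 ∧ ∃ lam : T →+* integralClosure ℤ ℂ,
      (∀ t, (restrictHom φ K hKφ t).baseChange ℂ v = ((lam t : integralClosure ℤ ℂ) : ℂ) • v) ∧
      ∃ 𝔪' : Ideal (integralClosure ℤ ℂ), 𝔪'.IsMaximal ∧ (∀ t ∈ 𝔪, lam t ∈ 𝔪') ∧
        (p : integralClosure ℤ ℂ) ∈ 𝔪' := by
  classical
  set ψ : T →+* Module.End ℤ K := restrictHom φ K hKφ with hψ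
  -- elements outside `𝔪` do not kill `k` mod `p`
  have hunit : ∀ t : T, t ∉ 𝔪 → ¬ ∃ z : L, φ t k = (p : ℤ) • z := by
    rintro t ht ⟨z, hz⟩
    obtain ⟨s, a, ha, hsa⟩ := h𝔪.exists_inv ht
    obtain ⟨z', hz'⟩ := hk𝔪 a ha
    apply hk0
    refine ⟨φ s z + z', ?_⟩
    have h1 : k = φ (s * t + a) k := by rw [hsa, map_one, Module.End.one_apply]
    rw [map_add, map_mul, LinearMap.add_apply, Module.End.mul_apply, hz, hz', map_smul] at h1
    rw [smul_add]
    exact h1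
  -- `p ∈ 𝔪`
  have hp𝔪 : (p : T) ∈ 𝔪 := by
    by_contra hcon
    apply hunit _ hcon
    refine ⟨k, ?_⟩
    rw [map_natCast]
    simp
  -- the kernel of the restricted action lies in `𝔪`
  have hker : RingHom.ker ψ ≤ 𝔪 := by
    intro t ht
    by_contra hcon
    apply hunit t hcon
    refine ⟨0, ?_⟩
    rw [smul_zero]
    have h0 : ψ t ⟨k, hk⟩ = 0 := by
      rw [RingHom.mem_ker] at ht
      rw [ht, LinearMap.zero_apply]
    have := congrArg (fun x : K => (x : L)) h0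
    simpa [hψ] using this
  -- the faithful quotient
  let I : Ideal T := RingHom.ker ψ
  let π : T →+* T ⧸ I := Ideal.Quotient.mk I
  let ψ' : T ⧸ I →+* Module.End ℤ K := RingHom.kerLift ψ
  have hψ'inj : Function.Injective ψ' := RingHom.kerLift_injective ψ
  have hψ'π : ∀ t, ψ' (π t) = ψ t := fun t => RingHom.kerLift_mk ψ t
  have : Module.Finite ℤ (T ⧸ I) :=
    Module.Finite.of_injective (ψ'.toAddMonoidHom.toIntLinearMap) hψ'inj
  have hπsurj : Function.Surjective π := Ideal.Quotient.mk_surjective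
  have h𝔫 : (𝔪.map π).IsMaximal :=
    Ideal.IsMaximal.map_of_surjective_of_ker_le hπsurj (by
      rw [Ideal.mk_ker]
      exact hker)
  -- the action on `ℂ ⊗ K`
  let ι : T ⧸ I →+* Module.End ℂ (ℂ ⊗[ℤ] K) :=
    ((Module.End.baseChangeHom ℤ ℂ K : Module.End ℤ K →ₐ[ℤ] Module.End ℂ (ℂ ⊗[ℤ] K)) :
      Module.End ℤ K →+* Module.End ℂ (ℂ ⊗[ℤ] K)).comp ψ'
  have hιapply : ∀ x, ι x = (ψ' x).baseChange ℂ := fun x => rfl
  have hιinj : Function.Injective ι := by
    rw [injective_iff_map_eq_zero]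
    intro x hx
    apply hψ'inj
    rw [map_zero]
    ext y
    have h1 : (ψ' x).baseChange ℂ ((1 : ℂ) ⊗ₜ[ℤ] y) = 0 := by
      rw [← hιapply, hx, LinearMap.zero_apply]
    rw [LinearMap.baseChange_tmul] at h1
    have h2 : (fun z : K => (1 : ℂ) ⊗ₜ[ℤ] z) (ψ' x y) = (fun z : K => (1 : ℂ) ⊗ₜ[ℤ] z) 0 := by
      simpa using h1
    have h3 := one_tmul_injective K h2
    rw [h3]
    simp
  obtain ⟨v, hv, lam', heig, 𝔪', h𝔪', hlam⟩ :=
    Fermat.Agent.S49.exists_eigen_lift ι hιinj (𝔪.map π)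
  refine ⟨v, hv, lam'.comp π, ?_, 𝔪', h𝔪', ?_, ?_⟩
  · intro t
    have := heig (π t)
    rw [hιapply, hψ'π] at this
    exact this
  · intro t ht
    exact hlam _ (Ideal.mem_map_of_mem π ht)
  · have := hlam _ (Ideal.mem_map_of_mem π hp𝔪)
    rwa [map_natCast, map_natCast] at this

/-- **The toric route, abstract form**: a toric class mod `p` (an element of `Kp` outside `p L`)
killed mod `p` by the maximal ideal `𝔪` lifts to a characteristic-`0` eigenvector inside the toric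
lattice `K`, as soon as `K` is `p`-saturated, `T`-stable, of rank `≥ r`, and the toric classes
mod `p` inject into a group of order `≤ p ^ r`. -/
theorem exists_eigen_lift_of_toric {p : ℕ} (hp : p.Prime)
    (φ : T →+* Module.End ℤ L) (K : Submodule ℤ L) (hKφ : ∀ t : T, ∀ x ∈ K, φ t x ∈ K)
    (hsat : ∀ x : L, (p : ℤ) • x ∈ K → x ∈ K)
    (Kp : AddSubgroup L) (hK : ∀ x ∈ K, x ∈ Kp)
    {X : Type*} [AddCommGroup X] [Finite X] (ξ : Kp →+ X)
    (hξ : ∀ y : Kp, ξ y = 0 → ∃ z : L, (y : L) = (p : ℤ) • z)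
    {r : ℕ} (hX : Nat.card X ≤ p ^ r) (hr : r ≤ Module.finrank ℤ K)
    (𝔪 : Ideal T) [h𝔪 : 𝔪.IsMaximal]
    {y : L} (hy : y ∈ Kp) (hy0 : ¬ ∃ z : L, y = (p : ℤ) • z)
    (hy𝔪 : ∀ t ∈ 𝔪, ∃ z : L, φ t y = (p : ℤ) • z) :
    ∃ v : ℂ ⊗[ℤ] K, v ≠ 0 ∧ ∃ lam : T →+* integralClosure ℤ ℂ,
      (∀ t, (restrictHom φ K hKφ t).baseChange ℂ v = ((lam t : integralClosure ℤ ℂ) : ℂ) • v) ∧
      ∃ 𝔪' : Ideal (integralClosure ℤ ℂ), 𝔪'.IsMaximal ∧ (∀ t ∈ 𝔪, lam t ∈ 𝔪') ∧
        (p : integralClosure ℤ ℂ) ∈ 𝔪' := by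
  obtain ⟨k, hk, z, hyk⟩ := exists_eq_add_smul hp K hsat Kp hK ξ hξ hX hr hy
  have hk0 : ¬ ∃ z' : L, k = (p : ℤ) • z' := by
    rintro ⟨z', hz'⟩
    apply hy0
    refine ⟨z' + z, ?_⟩
    rw [hyk, hz', smul_add]
  have hk𝔪 : ∀ t ∈ 𝔪, ∃ z' : L, φ t k = (p : ℤ) • z' := by
    intro t ht
    obtain ⟨z', hz'⟩ := hy𝔪 t ht
    refine ⟨z' - φ t z, ?_⟩
    have : k = y - (p : ℤ) • z := by rw [hyk]; abel
    rw [this, map_sub, map_smul, hz', smul_sub]
  exact exists_eigen_lift_of_class φ K hKφ 𝔪 hk hk0 hk𝔪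

end Lift

end Fermat.Agent.GM.Squeeze
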